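import Fermat.Agent.A3.H799.LocalSpec
import Fermat.Agent.S19.H195.RedDatum
import Fermat.Agent.Lib.RR.H439.PencilMul
import Fermat.Agent.S18.H725.RedBasic

/-!
# Cell A3 / LOCAL, leaf COORD (helper615): the kernel of reduction is a polydisc

Proof of the frozen leaf `Fermat.Agent.A3.H799.CoordStatement` (`A3/H799/LocalSpec.lean`):

for a good-reduction datum `𝓡 : GoodRed K F k Fk`, distinct points `Q_i` (`i < g`) of the special
fibre with `ℓ(Σ Q_i) = 1` and residue-disc data `d i` at the `Q_i`, with `E := polyDiv d 0`: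

* every class `x` of the kernel of reduction is `[D_z - E]` for a UNIQUE polydisc point `z`;
* conversely every `[D_z - E]` lies in the kernel of reduction.

Ingredients (all on main):

* `GoodRed.toRedDatumH195` : a `GoodRed` is a `RedDatum` of helper195 (`S19/H195/RedDatum.lean`),
  and `GoodRed.orthonormal` gives `OrthOn`; hence upper semicontinuity `ℓ(D) ≤ ℓ(r_* D)`;
* `r_*` of a principal divisor is principal (`GoodRed.gauss` + `GoodRed.div_red`);
* existence: Riemann's inequality on the generic fibre (`H439.exists_effective`) and uniqueness of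
  the effective divisor in the class of `Σ Q_i` on the special fibre;
* uniqueness: semicontinuity gives `ℓ(D_z) = 1`;
* the points of a disc are determined by their parameter value (`DiscData.pt_injective`).
-/

set_option autoImplicit false

noncomputable section

open AlgebraicCurve Fermat.Agent.Lib.RR Fermat.Agent.A3.H799

namespace Fermat.Agent.A3.H615

variable {K F k Fk : Type*} [Field K] [Field F] [Algebra K F] [Field k] [Field Fk] [Algebra k Fk]

namespace Coord

/-! ### `GoodRed` as a `RedDatum` of helper195 -/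

theorem inv_mem_of_not_mem_nonunits (A : ValuationSubring K) {a : K} (ha : a ∈ A)
    (hn : a ∉ A.nonunits) : a⁻¹ ∈ A := by
  rw [ValuationSubring.mem_nonunits_iff, not_lt] at hn
  have h1 : A.valuation a ≤ 1 := (A.valuation_le_one_iff a).mpr ha
  have h2 : A.valuation a = 1 := le_antisymm h1 hn
  rw [← A.valuation_le_one_iff, map_inv₀, h2, inv_one]

/-- A good-reduction datum is a reduction datum in the sense of helper195. -/
def toRedDatumH195 (𝓡 : GoodRed K F k Fk) : Fermat.Agent.S19.H195.RedDatum K F k Fk where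
  V := 𝓡.O.toSubring
  red := 𝓡.red
  r := 𝓡.r
  const_total := fun a => by
    rcases 𝓡.V.mem_or_inv_mem a with h | h
    · exact Or.inl ((𝓡.algebraMap_mem a).mpr h)
    · exact Or.inr ((𝓡.algebraMap_mem _).mpr h)
  red_const := fun a h => ⟨𝓡.res ⟨a, (𝓡.algebraMap_mem a).mp h⟩,
    𝓡.red_algebraMap ⟨a, (𝓡.algebraMap_mem a).mp h⟩ h⟩
  red_const_surj := fun b => by
    obtain ⟨a, ha⟩ := 𝓡.res_surjective b
    refine ⟨(a : K), (𝓡.algebraMap_mem _).mpr a.2, ?_⟩
    rw [← ha]
    exact 𝓡.red_algebraMap a _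
  red_const_unit := fun a h hne => by
    have ha : a ∈ 𝓡.V := (𝓡.algebraMap_mem a).mp h
    refine (𝓡.algebraMap_mem _).mpr (inv_mem_of_not_mem_nonunits 𝓡.V ha fun hnu => hne ?_)
    have h1 := 𝓡.red_algebraMap ⟨a, ha⟩ h
    have h2 : 𝓡.res ⟨a, ha⟩ = 0 := (𝓡.res_eq_zero ⟨a, ha⟩).mpr hnu
    rw [h2, map_zero] at h1
    exact h1
  ord_red := fun u hu hne D hD Q => 𝓡.div_red ⟨u, hu⟩ hne D hD Q

theorem orthOn (𝓡 : GoodRed K F k Fk) (D : Divisor K F) :
    (toRedDatumH195 𝓡).OrthOn (riemannRochSpace D) := by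
  obtain ⟨n, b, hli, hmem, hspan, -⟩ := 𝓡.orthonormal D
  exact ⟨n, fun i => ((b i : 𝓡.O) : F), fun i => (b i).2, hmem, hspan.ge, hli⟩

/-- **Upper semicontinuity** `ℓ(D) ≤ ℓ(r_* D)` for a good-reduction datum. -/
theorem ell_le_ell_mapDomain (𝓡 : GoodRed K F k Fk) (D : Divisor K F) :
    ell D ≤ ell (Finsupp.mapDomain 𝓡.r D) := by
  have := 𝓡.ff1
  have := 𝓡.ff1k
  exact (toRedDatumH195 𝓡).ell_le_ell_mapDomain D (orthOn 𝓡 D)

/-- Reduction of divisors preserves the degree. -/
theorem degree_mapDomain (𝓡 : GoodRed K F k Fk) (D : Divisor K F) :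
    Divisor.degree (Finsupp.mapDomain 𝓡.r D) = Divisor.degree D := by
  have := 𝓡.ff1
  have := 𝓡.ff1k
  exact (toRedDatumH195 𝓡).degree_mapDomain D

/-- `r_*` maps principal divisors to principal divisors. -/
theorem mapDomain_mem_principal (𝓡 : GoodRed K F k Fk) {D : Divisor K F}
    (hD : D ∈ Divisor.principal (K := K) (F := F)) :
    Finsupp.mapDomain 𝓡.r D ∈ Divisor.principal (K := k) (F := Fk) := by
  obtain ⟨f, hf, hDf⟩ := hD
  obtain ⟨a, ha, h, hred⟩ := 𝓡.gauss f hf
  have haF : algebraMap K F a ≠ 0 := by rwa [Ne, map_eq_zero]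
  refine ⟨𝓡.red ⟨algebraMap K F a * f, h⟩, hred, fun Q => ?_⟩
  refine 𝓡.div_red ⟨algebraMap K F a * f, h⟩ hred D (fun P => ?_) Q
  rw [hDf P, P.ord_mul haF hf, Fermat.Agent.Lib.RR.ord_algebraMap, zero_add]


/-! ### Generalities -/

/-- Two effective divisors in the same class, one of which has `ℓ = 1`, are equal. -/
theorem eq_of_sub_mem_principal {K' F' : Type*} [Field K'] [Field F'] [Algebra K' F']
    [FF1 K' F'] {E E' : Divisor K' F'} (hE : 0 ≤ E) (hE' : 0 ≤ E') (hl : ell E = 1)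
    (hcl : E' - E ∈ Divisor.principal (K := K') (F := F')) : E' = E := by
  obtain ⟨f, -, hf⟩ := AddSubgroup.neg_mem _ hcl
  refine (H439.eq_of_effective_of_ell_eq_one hE hE' hl (h := f) fun v => ?_).symm
  rw [← hf v]
  simp

theorem mapDomain_nonneg_of_nonneg {α β : Type*} (r : α → β) {D : α →₀ ℤ} (hD : 0 ≤ D) :
    0 ≤ Finsupp.mapDomain r D := by
  rw [Finsupp.le_def]
  intro Q
  rw [Finsupp.zero_apply]
  exact Fermat.Agent.S18.H725.mapDomain_nonneg r D fun P _ => by
    simpa using Finsupp.le_def.mp hD P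

theorem pic0_mk_eq_iff {D D' : Divisor.degZero (K := K) (F := F)} :
    Pic0.mk D = Pic0.mk D' ↔
      (D : Divisor K F) - (D' : Divisor K F) ∈ Divisor.principal (K := K) (F := F) := by
  unfold Pic0.mk
  rw [QuotientAddGroup.eq, AddSubgroup.mem_addSubgroupOf]
  have h1 : ((-D + D' : Divisor.degZero (K := K) (F := F)) : Divisor K F) =
      -((D : Divisor K F) - (D' : Divisor K F)) := by
    push_cast
    abel
  rw [h1, AddSubgroup.neg_mem_iff]

/-! ### Points of a disc -/

/-- The points of a residue disc are determined by their parameter value. -/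
theorem pt_injective {𝓡 : GoodRed K F k Fk} {Q : Place k Fk} (d : DiscData 𝓡 Q) :
    Function.Injective d.pt := by
  intro a a' h
  by_contra hne
  have hK : ((a : 𝓡.V) : K) ≠ ((a' : 𝓡.V) : K) := fun h' => hne (Subtype.ext (Subtype.ext h'))
  have h1 := d.ev_spec a d.D.t
  have h2 := d.ev_spec a' d.D.t
  rw [d.D.ev_t] at h1 h2
  rw [← h] at h2
  have hc : algebraMap K F (((a : 𝓡.V) : K) - ((a' : 𝓡.V) : K)) ≠ 0 := by
    rw [Ne, map_eq_zero, sub_eq_zero]
    exact hK
  have hc0 : (d.pt a).ord (algebraMap K F (((a : 𝓡.V) : K) - ((a' : 𝓡.V) : K))) = 0 :=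
    Fermat.Agent.Lib.RR.ord_algebraMap _ _
  have hc0' : (d.pt a).ord (algebraMap K F (((a' : 𝓡.V) : K) - ((a : 𝓡.V) : K))) = 0 :=
    Fermat.Agent.Lib.RR.ord_algebraMap _ _
  rcases h1 with h1 | h1
  · rcases h2 with h2 | h2
    · exact hK ((algebraMap K F).injective (h1.symm.trans h2))
    · rw [h1, ← map_sub, hc0] at h2
      omega
  · rcases h2 with h2 | h2
    · rw [h2, ← map_sub, hc0'] at h1
      omega
    · have hx : ((d.D.t : d.ring) : F) - algebraMap K F ((a : 𝓡.V) : K) ≠ 0 :=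
        ne_zero_of_ord_ne_zero (d.pt a) (by omega)
      have hy : ((d.D.t : d.ring) : F) - algebraMap K F ((a' : 𝓡.V) : K) ≠ 0 :=
        ne_zero_of_ord_ne_zero (d.pt a) (by omega)
      have hsum : (((d.D.t : d.ring) : F) - algebraMap K F ((a' : 𝓡.V) : K)) +
          -(((d.D.t : d.ring) : F) - algebraMap K F ((a : 𝓡.V) : K)) =
          algebraMap K F (((a : 𝓡.V) : K) - ((a' : 𝓡.V) : K)) := by
        rw [map_sub]
        ring
      have h3 := ord_add (d.pt a) hy (neg_ne_zero.mpr hx) (by rw [hsum]; exact hc)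
      rw [hsum, hc0, ord_neg] at h3
      have h4 := le_trans (le_min h2 h1) h3
      omega

/-! ### Divisors of polydisc points -/

section PolyDiv

variable {𝓡 : GoodRed K F k Fk} {ι : Type*} [Fintype ι] {Qs : ι → Place k Fk}

theorem mapDomain_polyDiv (d : ∀ i, DiscData 𝓡 (Qs i))
    (z : ι → IsLocalRing.maximalIdeal 𝓡.V) :
    Finsupp.mapDomain 𝓡.r (polyDiv d z) = ∑ i, Finsupp.single (Qs i) (1 : ℤ) := by
  unfold polyDiv
  rw [Finsupp.mapDomain_finsetSum]
  refine Finset.sum_congr rfl fun i _ => ?_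
  rw [Finsupp.mapDomain_single, (d i).r_pt]

theorem sum_single_nonneg {α : Type*} (P : ι → α) :
    (0 : α →₀ ℤ) ≤ ∑ i, Finsupp.single (P i) (1 : ℤ) :=
  Finset.sum_nonneg fun i _ => by
    rw [Finsupp.le_def]
    intro a
    classical
    rw [Finsupp.single_apply]
    split_ifs <;> simp

theorem polyDiv_nonneg (d : ∀ i, DiscData 𝓡 (Qs i))
    (z : ι → IsLocalRing.maximalIdeal 𝓡.V) : 0 ≤ polyDiv d z :=
  sum_single_nonneg _

theorem degree_polyDiv (d : ∀ i, DiscData 𝓡 (Qs i))
    (z : ι → IsLocalRing.maximalIdeal 𝓡.V) :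
    Divisor.degree (polyDiv d z) = Fintype.card ι := by
  have := 𝓡.ff1
  unfold polyDiv
  rw [map_sum]
  simp [Divisor.degree_single, deg_eq_one]

/-- The multiplicity of `D_w` at a point of the `i`-th disc. -/
theorem polyDiv_apply (hQ : Function.Injective Qs) (d : ∀ i, DiscData 𝓡 (Qs i))
    (w : ι → IsLocalRing.maximalIdeal 𝓡.V) (i : ι) {P : Place K F} (hP : 𝓡.r P = Qs i)
    [Decidable ((d i).pt (w i) = P)] :
    polyDiv d w P = if (d i).pt (w i) = P then 1 else 0 := by
  classical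
  unfold polyDiv
  rw [Finsupp.finsetSum_apply, Finset.sum_eq_single i]
  · rw [Finsupp.single_apply]
  · intro j _ hji
    rw [Finsupp.single_apply, if_neg]
    intro hh
    apply hji
    apply hQ
    rw [← (d j).r_pt (w j), hh, hP]
  · intro hh
    exact absurd (Finset.mem_univ i) hh

/-- A polydisc point is determined by its divisor. -/
theorem polyDiv_injective (hQ : Function.Injective Qs) (d : ∀ i, DiscData 𝓡 (Qs i)) :
    Function.Injective (polyDiv d) := by
  classical
  intro z z' h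
  funext i
  apply pt_injective (d i)
  have h1 := polyDiv_apply hQ d z i ((d i).r_pt (z i))
  have h2 := polyDiv_apply hQ d z' i ((d i).r_pt (z i))
  rw [if_pos rfl] at h1
  rw [← h, h1] at h2
  by_contra hne
  rw [if_neg fun hh => hne hh.symm] at h2
  exact one_ne_zero h2

theorem sum_single_apply_self (hQ : Function.Injective Qs) (i : ι) :
    (∑ j, Finsupp.single (Qs j) (1 : ℤ)) (Qs i) = 1 := by
  classical
  rw [Finsupp.finsetSum_apply, Finset.sum_eq_single i]
  · rw [Finsupp.single_eq_same]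
  · intro j _ hji
    rw [Finsupp.single_apply, if_neg fun hh => hji (hQ hh)]
  · intro hh
    exact absurd (Finset.mem_univ i) hh

/-- An effective divisor reducing to `Σ Q_i` is the divisor of a polydisc point. -/
theorem exists_polyDiv_eq (hQ : Function.Injective Qs) (d : ∀ i, DiscData 𝓡 (Qs i))
    {E : Divisor K F} (hE : 0 ≤ E)
    (hr : Finsupp.mapDomain 𝓡.r E = ∑ i, Finsupp.single (Qs i) (1 : ℤ)) :
    ∃ z : ι → IsLocalRing.maximalIdeal 𝓡.V, E = polyDiv d z := by
  classical
  have hE' : ∀ P, 0 ≤ E P := fun P => by simpa using Finsupp.le_def.mp hE P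
  have h1 : ∀ i, ∃ P₁, 𝓡.r P₁ = Qs i ∧ E P₁ = 1 ∧ ∀ P, 𝓡.r P = Qs i → P ≠ P₁ → E P = 0 :=
    fun i => Fermat.Agent.S18.H725.exists_unique_of_mapDomain_eq_one 𝓡.r E (fun P _ => hE' P)
      (by rw [hr]; exact sum_single_apply_self hQ i)
  choose P hP1 hP2 hP3 using h1
  have h2 : ∀ i, ∃ a, (d i).pt a = P i := fun i => (d i).pt_surj (P i) (hP1 i)
  choose z hz using h2
  refine ⟨z, ?_⟩
  ext P₀
  by_cases hex : ∃ i, 𝓡.r P₀ = Qs i
  · obtain ⟨i, hi⟩ := hex
    rw [polyDiv_apply hQ d z i hi, hz]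
    by_cases hP0 : P₀ = P i
    · rw [if_pos hP0.symm, hP0, hP2 i]
    · rw [if_neg (Ne.symm hP0), hP3 i P₀ hi hP0]
  · push Not at hex
    have h0 : Finsupp.mapDomain 𝓡.r E (𝓡.r P₀) = 0 := by
      rw [hr, Finsupp.finsetSum_apply]
      exact Finset.sum_eq_zero fun j _ => by
        rw [Finsupp.single_apply, if_neg fun hh => hex j hh.symm]
    have hEP : E P₀ = 0 :=
      Fermat.Agent.S18.H725.eq_zero_of_mapDomain_eq_zero 𝓡.r E (fun P _ => hE' P) h0 rfl
    rw [hEP]
    symm
    unfold polyDiv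
    rw [Finsupp.finsetSum_apply]
    exact Finset.sum_eq_zero fun j _ => by
      rw [Finsupp.single_apply, if_neg]
      intro hh
      exact hex j (by rw [← hh, (d j).r_pt])

end PolyDiv

/-! ### The leaf COORD -/

/-- **COORD**: the kernel of reduction is the polydisc. -/
theorem coord : CoordStatement K F k Fk := by
  intro 𝓡 Qs hQ hns d
  have hff1 : FF1 K F := 𝓡.ff1
  have hff1k : FF1 k Fk := 𝓡.ff1k
  have hEbar0 : (0 : Divisor k Fk) ≤ ∑ i, Finsupp.single (Qs i) (1 : ℤ) := sum_single_nonneg _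
  have hell : ∀ z, ell (polyDiv d z) = 1 := by
    intro z
    have h1 := ell_le_ell_mapDomain 𝓡 (polyDiv d z)
    rw [mapDomain_polyDiv, hns] at h1
    have h2 : ell (0 : Divisor K F) ≤ ell (polyDiv d z) := ell_mono (polyDiv_nonneg d z)
    rw [ell_zero] at h2
    omega
  refine ⟨fun x hx => ?_, fun z D hD => ?_⟩
  · obtain ⟨D₀, rfl, hD₀⟩ := hx
    have hdeg : (genusFF K F : ℤ) ≤ Divisor.degree ((D₀ : Divisor K F) + polyDiv d 0) := by
      rw [map_add, degree_polyDiv, Fintype.card_fin, 𝓡.genus_eq]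
      have : Divisor.degree (D₀ : Divisor K F) = 0 := D₀.2
      omega
    obtain ⟨f, hf0, hf⟩ := H439.exists_effective hdeg
    have hE'0 : 0 ≤ (D₀ : Divisor K F) + polyDiv d 0 + divOf f hf0 := by
      rw [Finsupp.le_def]
      intro v
      rw [Finsupp.add_apply, divOf_apply]
      exact hf v
    have hprin : divOf f hf0 ∈ Divisor.principal (K := K) (F := F) :=
      ⟨f, hf0, divOf_apply f hf0⟩
    have hrE' : Finsupp.mapDomain 𝓡.r ((D₀ : Divisor K F) + polyDiv d 0 + divOf f hf0) =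
        ∑ i, Finsupp.single (Qs i) (1 : ℤ) := by
      refine eq_of_sub_mem_principal hEbar0
        (mapDomain_nonneg_of_nonneg 𝓡.r hE'0) hns ?_
      rw [Finsupp.mapDomain_add, Finsupp.mapDomain_add, mapDomain_polyDiv]
      have h3 := AddSubgroup.add_mem _ hD₀ (mapDomain_mem_principal 𝓡 hprin)
      convert h3 using 1
      abel
    obtain ⟨z, hz⟩ := exists_polyDiv_eq hQ d hE'0 hrE'
    have hDz : polyDiv d z - polyDiv d 0 = (D₀ : Divisor K F) + divOf f hf0 := by
      rw [← hz]
      abel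
    have hdegz : polyDiv d z - polyDiv d 0 ∈ Divisor.degZero (K := K) (F := F) := by
      rw [Divisor.mem_degZero, map_sub, degree_polyDiv, degree_polyDiv, sub_self]
    have hmk : Pic0.mk (⟨polyDiv d z - polyDiv d 0, hdegz⟩ : Divisor.degZero (K := K) (F := F)) =
        Pic0.mk D₀ := by
      rw [pic0_mk_eq_iff]
      show polyDiv d z - polyDiv d 0 - (D₀ : Divisor K F) ∈ _
      rw [hDz, add_sub_cancel_left]
      exact hprin
    refine ⟨z, ⟨⟨_, hdegz⟩, rfl, hmk⟩, ?_⟩
    rintro z' ⟨D', hD', hx'⟩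
    apply polyDiv_injective hQ d
    refine eq_of_sub_mem_principal (polyDiv_nonneg d z) (polyDiv_nonneg d z') (hell z) ?_
    have h4 := pic0_mk_eq_iff.mp (hx'.trans hmk.symm)
    rw [hD'] at h4
    have h5 : polyDiv d z' - polyDiv d 0 - (polyDiv d z - polyDiv d 0) =
        polyDiv d z' - polyDiv d z := by abel
    rw [← h5]
    exact h4
  · refine ⟨D, rfl, ?_⟩
    rw [hD, Finsupp.mapDomain_sub, mapDomain_polyDiv, mapDomain_polyDiv, sub_self]
    exact AddSubgroup.zero_mem _

end Coord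

end Fermat.Agent.A3.H615
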