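import Fermat.Agent.S37.H518.Conserve
import Fermat.Agent.S18.H725.RedBasic

/-!
# Cell A3 (helper615): residue discs of a two-chart model

Setting: `h : TwoCharts π ι ρ B₀ B₁ x₀ x₁` (helper518, row S37): the abstract smooth integral
two-chart model of a curve over a valuation ring `A` of `L`, with the place reduction map
`h.rmap : Place L F → Place k Fk` and conservation of number `h.mapDomain_rmap_eq`.

For a place `Q` of the special fibre centred on a chart `B` and a chart function `u ∈ B` whose
reduction is a uniformiser at `Q`, the **residue disc** `{P | h.rmap P = Q}` is in bijection with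
the maximal ideal `ker π` of `A`, by `P ↦ u(P)`:

* `Disc.exists_value_of_rmap_eq` : every `P` in the disc has a `u`-value `c ∈ ker π`;
* `Disc.existsUnique_place_of_value` : every `c ∈ ker π` is the `u`-value of exactly one
  place of the disc, and `u - c` is a uniformiser there;
* `Disc.discEquiv` : the resulting equivalence `{P // h.rmap P = Q} ≃ RingHom.ker π`;
* `Disc.sum_disc_ord_eq` : conservation of number on one disc.

No Hensel lemma is used: existence comes from conservation of number.
These are the local coordinates of route "Z" (origin/helper19:coord/A3-route-helper19.md, §1).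
-/

set_option autoImplicit false

noncomputable section

namespace Fermat.Agent.A3.H615

open AlgebraicCurve Fermat.Agent.S24.H504 Fermat.Agent.S37.H518 Fermat.Agent.Lib.RR

variable {L : Type*} [Field L] {A : ValuationSubring L} {k : Type*} [Field k]
variable {F : Type*} [Field F] [Algebra L F] {Fk : Type*} [Field Fk] [Algebra k Fk]
variable {V : Type*} [CommRing V] [Algebra A V]
variable {π : A →+* k} {ι : V →+* F} {ρ : V →+* Fk} {B₀ B₁ : Subalgebra A V} {x₀ x₁ : V}

/-- The places of the disc of `Q` are centred on the chart `B`, compatibly with reduction. -/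
def DiscOn (h : TwoCharts π ι ρ B₀ B₁ x₀ x₁) (B : Subalgebra A V) (Q : Place k Fk) : Prop :=
  ∀ P : Place L F, h.rmap P = Q → PC ι B P ∧ RedTo π ι ρ B P Q

namespace Disc

variable (h : TwoCharts π ι ρ B₀ B₁ x₀ x₁)

theorem discOn_chart0 {Q : Place k Fk} (hQ : QC ρ B₀ Q) : DiscOn h B₀ Q := by
  intro P hP
  have := h.rmap_chart0 (P := P) (by rw [hP]; exact hQ)
  rwa [hP] at this

theorem discOn_chart1 {Q : Place k Fk} (hQ : QC ρ B₁ Q) : DiscOn h B₁ Q := by
  intro P hP
  have := h.rmap_chart1 (P := P) (by rw [hP]; exact hQ)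
  rwa [hP] at this

/-- Every place of the special fibre is centred on one of the two charts, and its disc lies on
that chart. -/
theorem exists_discOn (Q : Place k Fk) :
    (QC ρ B₀ Q ∧ DiscOn h B₀ Q) ∨ (QC ρ B₁ Q ∧ DiscOn h B₁ Q) := by
  rcases h.cover_Q Q with hQ | hQ
  · exact Or.inl ⟨hQ, discOn_chart0 h hQ⟩
  · exact Or.inr ⟨hQ, discOn_chart1 h hQ⟩

variable {h}

/-- The value of a chart function vanishing at `Q`, at a place of the disc of `Q`, lies in the
maximal ideal. -/
theorem exists_value_of_rmap_eq {B : Subalgebra A V} {Q : Place k Fk} (hB : DiscOn h B Q)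
    {u : V} (hu : u ∈ B) (huQ : InMax Q (ρ u)) {P : Place L F} (hP : h.rmap P = Q) :
    ∃ c : A, π c = 0 ∧ InMax P (ι u - algebraMap L F (c : L)) := by
  obtain ⟨hPC, hRed⟩ := hB P hP
  obtain ⟨c, hc⟩ := hPC u hu
  refine ⟨c, ?_, hc⟩
  have h1 := hRed u hu c hc
  have h2 : InMax Q (algebraMap k Fk (π c)) := by
    have := huQ.sub h1
    rwa [sub_sub_cancel] at this
  by_contra hne
  exact not_inMax_algebraMap hne h2

/-- The value of a chart function at a place of the disc is unique. -/
theorem value_unique_of_inMax {ι : V →+* F} {u : V} {P : Place L F} {c c' : A}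
    (hc : InMax P (ι u - algebraMap L F (c : L)))
    (hc' : InMax P (ι u - algebraMap L F (c' : L))) : c = c' :=
  Subtype.ext (value_unique hc hc')

section Conservation

variable [HasPrincipalDivisors L F] [HasPrincipalDivisors k Fk]

/-- Conservation of number on one residue disc: for an integral function `y` with nonzero
reduction, the orders of `y` at the places of the disc of `Q` (taken over any finite set `S`
containing the zeros and poles of `y` in the disc) add up to the order of the reduction at `Q`. -/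
theorem sum_disc_ord_eq [DecidableEq (Place k Fk)] (h : TwoCharts π ι ρ B₀ B₁ x₀ x₁)
    {y : V} (hy : ρ y ≠ 0) (Q : Place k Fk) (D : Divisor L F)
    (hD : ∀ P, D P = P.ord (ι y)) :
    ∑ P ∈ D.support with h.rmap P = Q, P.ord (ι y) = Q.ord (ρ y) := by
  have h1 := h.mapDomain_rmap_eq hy D hD Q
  rw [Fermat.Agent.S37.H518.mapDomain_apply_eq_sum] at h1
  rw [← h1]
  exact Finset.sum_congr rfl fun P _ => (hD P).symm

/-- **Points of a residue disc.**  Let `u` be a chart function whose reduction is a uniformiser
at `Q`.  For every `c` in the maximal ideal of `A` there is exactly one place `P` in the disc of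
`Q` with `u(P) = c`; moreover `u - c` is a uniformiser at `P`. -/
theorem existsUnique_place_of_value {B : Subalgebra A V} {Q : Place k Fk} (hB : DiscOn h B Q)
    {u : V} (hu : u ∈ B) (huQ : Q.ord (ρ u) = 1) (c : A) (hc : π c = 0) :
    ∃! P : Place L F, h.rmap P = Q ∧ InMax P (ι u - algebraMap L F (c : L)) := by
  classical
  have hR : RedStr π ι ρ := h.toRedStr
  set y : V := u - algebraMap A V c with hy
  have hρy : ρ y = ρ u := by
    rw [hy, map_sub, hR.rho_alg, hc, map_zero, sub_zero]
  have hρu0 : ρ u ≠ 0 := by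
    intro h0
    rw [h0, Place.ord_zero] at huQ
    exact zero_ne_one huQ
  have hρy0 : ρ y ≠ 0 := by rwa [hρy]
  have hιy : ι y = ι u - algebraMap L F (c : L) := by
    rw [hy, map_sub, hR.iota_alg]
  have hιy0 : ι y ≠ 0 := h.iota_ne_zero hρy0
  have hyB : y ∈ B := B.sub_mem hu (B.algebraMap_mem c)
  obtain ⟨D, hD, -⟩ := HasPrincipalDivisors.exists_divisor (K := L) (ι y) hιy0
  have h1 : Finsupp.mapDomain h.rmap D Q = 1 := by
    rw [h.mapDomain_rmap_eq hρy0 D hD Q, hρy, huQ]
  have hnn : ∀ P, h.rmap P = Q → 0 ≤ D P := by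
    intro P hP
    rw [hD]
    exact (hB P hP).1.ord_nonneg hyB
  obtain ⟨P₁, hP₁, hDP₁, hother⟩ :=
    Fermat.Agent.S18.H725.exists_unique_of_mapDomain_eq_one h.rmap D hnn h1
  refine ⟨P₁, ⟨hP₁, ?_⟩, ?_⟩
  · rw [← hιy]
    right
    rw [← hD, hDP₁]
    exact one_pos
  · rintro P ⟨hP, hPmax⟩
    by_contra hne
    have h0 := hother P hP hne
    rw [hD] at h0
    rw [← hιy] at hPmax
    rcases hPmax with h' | h'
    · exact hιy0 h'
    · omega

/-- In the situation of `existsUnique_place_of_value`, `u - c` is a uniformiser at the place. -/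
theorem ord_sub_value_eq_one {B : Subalgebra A V} {Q : Place k Fk} (hB : DiscOn h B Q)
    {u : V} (hu : u ∈ B) (huQ : Q.ord (ρ u) = 1) {c : A} (hc : π c = 0) {P : Place L F}
    (hP : h.rmap P = Q) (hPc : InMax P (ι u - algebraMap L F (c : L))) :
    P.ord (ι u - algebraMap L F (c : L)) = 1 := by
  classical
  have hR : RedStr π ι ρ := h.toRedStr
  set y : V := u - algebraMap A V c with hy
  have hρy : ρ y = ρ u := by
    rw [hy, map_sub, hR.rho_alg, hc, map_zero, sub_zero]
  have hρu0 : ρ u ≠ 0 := by
    intro h0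
    rw [h0, Place.ord_zero] at huQ
    exact zero_ne_one huQ
  have hρy0 : ρ y ≠ 0 := by rwa [hρy]
  have hιy : ι y = ι u - algebraMap L F (c : L) := by
    rw [hy, map_sub, hR.iota_alg]
  have hιy0 : ι y ≠ 0 := h.iota_ne_zero hρy0
  have hyB : y ∈ B := B.sub_mem hu (B.algebraMap_mem c)
  obtain ⟨D, hD, -⟩ := HasPrincipalDivisors.exists_divisor (K := L) (ι y) hιy0
  have h1 : Finsupp.mapDomain h.rmap D Q = 1 := by
    rw [h.mapDomain_rmap_eq hρy0 D hD Q, hρy, huQ]
  have hnn : ∀ P, h.rmap P = Q → 0 ≤ D P := by
    intro P hP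
    rw [hD]
    exact (hB P hP).1.ord_nonneg hyB
  have hpos : 0 < D P := by
    rw [hD]
    rw [← hιy] at hPc
    rcases hPc with h' | h'
    · exact absurd h' hιy0
    · exact h'
  have := (Fermat.Agent.S18.H725.unique_of_mapDomain_eq_one h.rmap D hnn h1 hP hpos).1
  rw [← hιy, ← hD]
  exact this

/-- **The residue disc as a set**: `P ↦ u(P)` is a bijection from the disc of `Q` onto the
maximal ideal `ker π` of `A`. -/
def discEquiv {B : Subalgebra A V} {Q : Place k Fk} (hB : DiscOn h B Q)
    {u : V} (hu : u ∈ B) (huQ : Q.ord (ρ u) = 1) :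
    {P : Place L F // h.rmap P = Q} ≃ {c : A // π c = 0} where
  toFun P := ⟨(exists_value_of_rmap_eq hB hu (Or.inr (by rw [huQ]; exact one_pos)) P.2).choose,
    (exists_value_of_rmap_eq hB hu (Or.inr (by rw [huQ]; exact one_pos)) P.2).choose_spec.1⟩
  invFun c := ⟨(existsUnique_place_of_value hB hu huQ c.1 c.2).choose,
    (existsUnique_place_of_value hB hu huQ c.1 c.2).choose_spec.1.1⟩
  left_inv P := by
    apply Subtype.ext
    have hP := (exists_value_of_rmap_eq hB hu (Or.inr (by rw [huQ]; exact one_pos)) P.2).choose_spec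
    exact ((existsUnique_place_of_value hB hu huQ _ hP.1).choose_spec.2 P.1 ⟨P.2, hP.2⟩).symm
  right_inv c := by
    apply Subtype.ext
    have hP := (existsUnique_place_of_value hB hu huQ c.1 c.2).choose_spec.1
    have hc' := (exists_value_of_rmap_eq hB hu (Or.inr (by rw [huQ]; exact one_pos))
      hP.1).choose_spec
    exact value_unique_of_inMax hc'.2 hP.2

theorem discEquiv_spec {B : Subalgebra A V} {Q : Place k Fk} (hB : DiscOn h B Q)
    {u : V} (hu : u ∈ B) (huQ : Q.ord (ρ u) = 1) (P : {P : Place L F // h.rmap P = Q}) :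
    InMax P.1 (ι u - algebraMap L F (((discEquiv hB hu huQ P : {c : A // π c = 0}) : A) : L)) :=
  (exists_value_of_rmap_eq hB hu (Or.inr (by rw [huQ]; exact one_pos)) P.2).choose_spec.2

theorem discEquiv_symm_spec {B : Subalgebra A V} {Q : Place k Fk} (hB : DiscOn h B Q)
    {u : V} (hu : u ∈ B) (huQ : Q.ord (ρ u) = 1) (c : {c : A // π c = 0}) :
    InMax ((discEquiv hB hu huQ).symm c).1 (ι u - algebraMap L F ((c : A) : L)) :=
  (existsUnique_place_of_value hB hu huQ c.1 c.2).choose_spec.1.2

end Conservation

end Disc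

end Fermat.Agent.A3.H615
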