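import Fermat.Agent.A3.H615.GrGenus
import Fermat.Agent.A3.H499.OrthInst
import Fermat.Agent.S19.Top5

/-!
# Cell A3 / GR: the block GR closed, and the frozen S19 conclusion (helper615)

All three leaves of helper739's assembly are on main:
RED (`GrRed.redLeaf`), GENUS from ORTH (`GrGenus.genusLeaf_of_orthLeaf`),
ORTH (`A3.H499.orthLeaf`, helper499).  Hence `S19.H979.GrStatement` and, by `S19.S19_of_gr`
(row-lead helper15), the conclusion of the frozen statement S19.
-/

set_option autoImplicit false
set_option synthInstance.maxHeartbeats 400000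

namespace Fermat.Agent.A3.H615

/-- **Block GR**: good reduction of `X₀(N)` at good levels. -/
theorem grStatement : Fermat.Agent.S19.H979.GrStatement :=
  GrGenus.grStatement_of_orth fun N _ _ _ hℓN _ V hV =>
    Fermat.Agent.A3.H499.orthLeaf N hℓN V hV (Fermat.Agent.A3.H739.gr_vg N hℓN V hV)

/-- **The conclusion of the frozen statement S19.** -/
theorem frozenS19 (p : ℕ) [NeZero p] (ℓ : ℕ) [Fact ℓ.Prime] (hℓp : ¬ ℓ ∣ p) (k : ℕ) :
    Fermat.Agent.S19.FrozenConclusion p ℓ k :=
  Fermat.Agent.S19.S19_of_gr grStatement p ℓ hℓp k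

end Fermat.Agent.A3.H615
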