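import Fermat.Agent.A3.H615.GrRedInst
import Fermat.Agent.S19.H195.GenusGood
import Fermat.Agent.S19.H195.RedDatum

/-!
# Cell A3 / GR-INST, leaf GENUS from leaf ORTH (helper615)

* `GrGenus.genus_le`  : `g(F_N) ≤ g(F_{N,k})` at good levels, UNCONDITIONAL
  (`S19.H195.GenusGood.genusFF_le_of_good` for the datum of `S37.H28.datumStatement`);
* `GrGenus.genus_ge_of_orth` : `g(F_{N,k}) ≤ g(F_N)` from `A3.H739.OrthLeaf`
  (`S19.H195.RedDatum.genusFF_le` for the reduction datum `(modO, modρ, r)`);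
* `GrGenus.genusLeaf_of_orthLeaf` : `OrthLeaf N V _ → GenusLeaf N V`;
* `GrGenus.grStatement_of_orth`  : `S19.H979.GrStatement` from the leaf ORTH alone.
-/

set_option autoImplicit false
set_option synthInstance.maxHeartbeats 400000

noncomputable section

namespace Fermat.Agent.A3.H615

open ModularCurve AlgebraicCurve HahnSeries IsLocalRing
open Fermat.Agent.S19 (GalQ IsInertiaAt GoodLevel)
open Fermat.Agent.S37.Red (Qb FN kA FNk ModVG modO modρ modFrac)
open Fermat.Agent.A3.H739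

namespace GrGenus

variable {N : ℕ} [NeZero N] {V : ValuationSubring Qb}

theorem inv_mem_of_notMem_nonunits {a : Qb} (ha : a ∈ V) (hn : a ∉ V.nonunits) : a⁻¹ ∈ V := by
  rw [ValuationSubring.mem_nonunits_iff, not_lt] at hn
  have h1 : V.valuation a ≤ 1 := (V.valuation_le_one_iff a).mpr ha
  have h2 : V.valuation a = 1 := le_antisymm h1 hn
  rw [← V.valuation_le_one_iff, map_inv₀, h2, inv_one]

/-- helper195's reduction datum on `(modO, modρ, r)`. -/
def redDatumMod (hVG : ModVG N V) (r : Place Qb (FN N) → Place (kA V) (FNk V N))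
    (hr : IsPlaceReductionModL V N r) :
    Fermat.Agent.S19.H195.RedDatum Qb (FN N) (kA V) (FNk V N) where
  V := (modO hVG).toSubring
  red := modρ hVG
  r := r
  const_total := fun a => by
    rcases V.mem_or_inv_mem a with h | h
    · exact Or.inl ((gr_algebraMap_mem hVG a).mpr h)
    · exact Or.inr ((gr_algebraMap_mem hVG _).mpr h)
  red_const := fun a h => ⟨residue V ⟨a, (gr_algebraMap_mem hVG a).mp h⟩,
    gr_red_algebraMap hVG ⟨a, (gr_algebraMap_mem hVG a).mp h⟩ h⟩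
  red_const_surj := fun b => by
    obtain ⟨a, ha⟩ := residue_surjective (R := V) b
    refine ⟨(a : Qb), (gr_algebraMap_mem hVG _).mpr a.2, ?_⟩
    rw [← ha]
    exact gr_red_algebraMap hVG a _
  red_const_unit := fun a h hne => by
    have ha : a ∈ V := (gr_algebraMap_mem hVG a).mp h
    refine (gr_algebraMap_mem hVG _).mpr (inv_mem_of_notMem_nonunits ha fun hnu => hne ?_)
    have h1 := gr_red_algebraMap hVG ⟨a, ha⟩ h
    have h2 : residue V ⟨a, ha⟩ = 0 := (gr_res_eq_zero ⟨a, ha⟩).mpr hnu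
    rw [h2, map_zero] at h1
    exact h1
  ord_red := fun u hu hne D hD Q => gr_div_red hVG r hr ⟨u, hu⟩ hne D hD Q

/-- **GENUS, direction `g_k ≤ g_K`**, from the leaves RED and ORTH. -/
theorem genus_ge_of_orth {ℓ : ℕ} [Fact ℓ.Prime] (hℓN : ¬ ℓ ∣ N) (hV : V.LiesOverPrime ℓ)
    (hVG : ModVG N V) (hred : RedLeaf N V) (horth : OrthLeaf N V hVG) :
    genusFF (kA V) (FNk V N) ≤ genusFF Qb (FN N) := by
  obtain ⟨r, hr, -⟩ := hred
  haveI := Fermat.Agent.Lib.RR.H864.ff1_modularFunctionFieldBar N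
  haveI := Fermat.Agent.S18.H383.ff1_residue N ℓ Fact.out hℓN V hV
  refine (redDatumMod hVG r hr).genusFF_le fun D => ?_
  obtain ⟨n, b, hli, hmem, hspan, -⟩ := horth D
  exact ⟨n, fun i => ((b i : modO hVG) : FN N), fun i => (b i).2, hmem, hspan.ge, hli⟩

/-- **GENUS, direction `g_K ≤ g_k`**, unconditional at good levels. -/
theorem genus_le (N : ℕ) [NeZero N] (ℓ : ℕ) [Fact ℓ.Prime] (hℓN : ¬ ℓ ∣ N)
    (hg : GoodLevel N ℓ) (V : ValuationSubring Qb) (hV : V.LiesOverPrime ℓ) :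
    genusFF Qb (FN N) ≤ genusFF (kA V) (FNk V N) := by
  obtain ⟨G, hgood, -⟩ := Fermat.Agent.S37.H28.datumStatement N ℓ Fact.out hℓN hg V hV
  haveI := Fermat.Agent.Lib.RR.H864.ff1_modularFunctionFieldBar N
  haveI := Fermat.Agent.S18.H383.ff1_residue N ℓ Fact.out hℓN V hV
  haveI : IsAlgClosed (kA V) := Fermat.Agent.S18.H9.resAlgClosed Qb V
  exact Fermat.Agent.S19.H195.GenusGood.genusFF_le_of_good G hgood

/-- **Leaf GR-GENUS from leaf GR-ORTH.** -/
theorem genusLeaf_of_orthLeaf (N : ℕ) [NeZero N] (ℓ : ℕ) [Fact ℓ.Prime] (hℓN : ¬ ℓ ∣ N)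
    (hg : GoodLevel N ℓ) (V : ValuationSubring Qb) (hV : V.LiesOverPrime ℓ)
    (horth : OrthLeaf N V (gr_vg N hℓN V hV)) : GenusLeaf N V :=
  le_antisymm (genus_le N ℓ hℓN hg V hV)
    (genus_ge_of_orth hℓN hV (gr_vg N hℓN V hV) (GrRed.redLeaf N ℓ hℓN hg V hV) horth)

/-- **GR from the leaf ORTH alone.** -/
theorem grStatement_of_orth
    (horth : ∀ (N : ℕ) [NeZero N] (ℓ : ℕ) [Fact ℓ.Prime] (hℓN : ¬ ℓ ∣ N), GoodLevel N ℓ →
      ∀ (V : ValuationSubring Qb) (hV : V.LiesOverPrime ℓ), OrthLeaf N V (gr_vg N hℓN V hV)) :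
    Fermat.Agent.S19.H979.GrStatement :=
  grStatement_of_leaves_forall GrRed.redLeaf
    (fun N _ ℓ _ hℓN hg V hV => genusLeaf_of_orthLeaf N ℓ hℓN hg V hV (horth N ℓ hℓN hg V hV))
    horth

end GrGenus

end Fermat.Agent.A3.H615
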