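import Fermat.Agent.S37.Core.RimGlue
import Fermat.Agent.S37.H697.Equivariant
import Fermat.Agent.S37.H98.RiemannBound
import Fermat.Agent.S18.H383.FF1Modular
import Fermat.Agent.Lib.FF398.Hecke

/-!
# Cell A3 / GR-INST, block RED (helper615): the place map of a linked datum with good charts

Input: the output of the S37 node `DatumStatement` (`S37/Core/Board.lean`), i.e. a reduction datum
`G : Red.Datum A (residue A) F_M F_{M,k}` with `G.Good` and `Red.H759.Link G`.

Output (`exists_red`): a map `r : Place Q̄ F_M → Place k F_{M,k}` with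

* `div_red`  : `r_* div f = div (G.ρ f)` for every `f ∈ G.O` with `G.ρ f ≠ 0`
               (= field `div_red` of `A3.H799.GoodRed` for `O := G.O`, `red := G.ρ`);
* `I_place`  : `r (σ • P) = r P` for every `σ ∈ Gal(Q̄/Q)` with `σ a - a ∈ 𝔪_A` for all `a ∈ A`
               (= `S19.IsInertiaAt A σ`; field `I_place` of `GoodRed` for the image of inertia);
* the Prelude's `IsPlaceReductionModL A M r`, and evaluation compatibility `Red.EvalCompat G r`.

Proof: `Red.H940.main_of_fibreSum` (existence, S37-RED) and helper697's uniqueness by the Riemann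
bound (`H697.placeReduction_equivariant`), which needs only that `r` is not constant; this follows
from `r_* div x = div x̄` and the transcendence of `x̄`.
-/

set_option autoImplicit false
set_option synthInstance.maxHeartbeats 400000

noncomputable section

namespace Fermat.Agent.A3.H615

open ModularCurve AlgebraicCurve HahnSeries IsLocalRing Fermat.Agent.S37.Red
open Fermat.Agent.Lib.RR

namespace GrRed

/-- `Q̄` -/
abbrev Qb : Type := AlgebraicClosure ℚ

variable {M : ℕ} {A : ValuationSubring Qb}

/-- principal divisors have degree zero -/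
theorem degree_eq_zero_of_mem_principal {K F : Type*} [Field K] [Field F] [Algebra K F]
    [HasPrincipalDivisors K F] {D : Divisor K F}
    (hD : D ∈ Divisor.principal (K := K) (F := F)) : Divisor.degree D = 0 := by
  obtain ⟨f, hf, hDf⟩ := hD
  obtain ⟨D', hD', hdeg⟩ := HasPrincipalDivisors.exists_divisor (K := K) f hf
  have : D = D' := Finsupp.ext fun v => by rw [hDf v, hD' v]
  rw [this, hdeg]

/-- A map on places with `r_* div f = div (ρ f)` is not constant: the divisor of the coordinate
has nonzero reduction. -/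
theorem exists_mapDomain_ne_zero [NeZero M] {ℓ : ℕ} (hℓ : ℓ.Prime) (hℓM : ¬ ℓ ∣ M)
    (hA : A.LiesOverPrime ℓ)
    (G : Datum A (residue A) (modularFunctionFieldBar M)
      (modularFunctionFieldFullC (ResidueField A) M))
    (r : Place Qb (modularFunctionFieldBar M) →
      Place (ResidueField A) (modularFunctionFieldFullC (ResidueField A) M))
    (hr : IsRed G r) :
    ∃ D ∈ Divisor.principal (K := Qb) (F := modularFunctionFieldBar M),
      Finsupp.mapDomain r D ≠ 0 := by
  have hff : FF1 (ResidueField A) (modularFunctionFieldFullC (ResidueField A) M) :=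
    Fermat.Agent.S18.H383.ff1_residue M ℓ hℓ hℓM A hA
  have hpd : HasPrincipalDivisors Qb (modularFunctionFieldBar M) :=
    Fermat.Agent.Lib.RR.H864.hasPrincipalDivisors_modularFunctionFieldBar M
  have hxk : G.ρ ⟨G.x, G.x_mem⟩ ≠ 0 := fun h0 =>
    G.xk_transc (by rw [h0]; exact isAlgebraic_zero)
  have hx0 : G.x ≠ 0 := by
    rintro h0
    apply hxk
    have : (⟨G.x, G.x_mem⟩ : G.O) = 0 := Subtype.ext h0
    rw [this, map_zero]
  obtain ⟨D, hD, -⟩ := HasPrincipalDivisors.exists_divisor (K := Qb) G.x hx0
  refine ⟨D, ⟨G.x, hx0, hD⟩, fun h0 => ?_⟩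
  -- then `x̄` has no zeros and no poles, hence is a constant
  have hord : ∀ Q : Place (ResidueField A) (modularFunctionFieldFullC (ResidueField A) M),
      Q.ord (G.ρ ⟨G.x, G.x_mem⟩) = 0 := by
    intro Q
    rw [← hr.2 G.x G.x_mem hxk D hD Q, h0, Finsupp.zero_apply]
  have hmem : G.ρ ⟨G.x, G.x_mem⟩ ∈
      riemannRochSpace (0 : Divisor (ResidueField A)
        (modularFunctionFieldFullC (ResidueField A) M)) := by
    rw [mem_L_iff]
    intro v
    right
    rw [hord v]
    simp
  rw [L_zero] at hmem
  obtain ⟨c, hc⟩ := hmem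
  apply G.xk_transc
  rw [← hc]
  exact isAlgebraic_algebraMap c

/-- **Inertia acts trivially on the special fibre, pointwise**: for a place reduction map `r`
which is not constant, and `σ` acting trivially on the residue field of `A`. -/
theorem inertia_place [NeZero M] {ℓ : ℕ} (hℓ : ℓ.Prime) (hℓM : ¬ ℓ ∣ M)
    (hA : A.LiesOverPrime ℓ)
    {r : Place Qb (modularFunctionFieldBar M) →
      Place (ResidueField A) (modularFunctionFieldFullC (ResidueField A) M)}
    (hr : IsPlaceReductionModL A M r)
    (hnc : ∃ D ∈ Divisor.principal (K := Qb) (F := modularFunctionFieldBar M),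
      Finsupp.mapDomain r D ≠ 0)
    (σ : Qb ≃ₐ[ℚ] Qb) (hσ : ∀ a : Qb, a ∈ A → σ a - a ∈ A.nonunits)
    (P : Place Qb (modularFunctionFieldBar M)) :
    r (arithmeticGalois (modularFunctionFieldFull M) σ • P) = r P := by
  have hpd : HasPrincipalDivisors Qb (modularFunctionFieldBar M) :=
    Fermat.Agent.Lib.RR.H864.hasPrincipalDivisors_modularFunctionFieldBar M
  have hσA : ∀ a ∈ A, σ a ∈ A := fun a ha => by
    have h1 := add_mem (A.nonunits_subset (hσ a ha)) ha
    rwa [sub_add_cancel] at h1
  have hφ : ∀ a : A, residue A ⟨σ a, hσA a a.2⟩ = (RingEquiv.refl (ResidueField A)) (residue A a) := by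
    intro a
    rw [RingEquiv.refl_apply, ← sub_eq_zero, ← map_sub, residue_eq_zero_iff]
    exact ValuationSubring.coe_mem_nonunits_iff.mp (hσ a a.2)
  have h := Fermat.Agent.S37.H697.placeReduction_equivariant (N := M) (A := A) hr
    (Fermat.Agent.S37.H98.gen M ℓ hℓ hℓM A hA)
    (fun P => Fermat.Agent.Lib.FF398.deg_eq_one_FF M P)
    (fun D hD => degree_eq_zero_of_mem_principal hD)
    (Fermat.Agent.S37.H98.riemannBound_modularFunctionFieldBar M)
    hnc σ hσA (RingEquiv.refl (ResidueField A)) hφ P
  rw [h, Fermat.Agent.S37.H697.coeffSL_refl, one_smul]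

/-- **GR-INST, block RED.**  The place map of a linked reduction datum with good charts:
conservation (`div_red`), triviality of inertia (`I_place`), the Prelude's
`IsPlaceReductionModL`, and evaluation compatibility. -/
theorem exists_red [NeZero M] {ℓ : ℕ} (hℓ : ℓ.Prime) (hℓM : ¬ ℓ ∣ M)
    (hA : A.LiesOverPrime ℓ)
    (G : Datum A (residue A) (modularFunctionFieldBar M)
      (modularFunctionFieldFullC (ResidueField A) M))
    (hgood : G.Good) (hlink : H759.Link G) :
    ∃ r : Place Qb (modularFunctionFieldBar M) →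
        Place (ResidueField A) (modularFunctionFieldFullC (ResidueField A) M),
      (∀ f : G.O, G.ρ f ≠ 0 → ∀ D : Divisor Qb (modularFunctionFieldBar M),
        (∀ P, D P = P.ord (f : modularFunctionFieldBar M)) →
          ∀ Q, Finsupp.mapDomain r D Q = Q.ord (G.ρ f)) ∧
      (∀ σ : Qb ≃ₐ[ℚ] Qb, (∀ a : Qb, a ∈ A → σ a - a ∈ A.nonunits) →
        ∀ P, r (arithmeticGalois (modularFunctionFieldFull M) σ • P) = r P) ∧
      IsPlaceReductionModL A M r ∧ EvalCompat G r := by
  have : IsAlgClosed (ResidueField A) := Fermat.Agent.S18.H9.resAlgClosed _ A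
  obtain ⟨r, hr, hec⟩ := H940.main_of_fibreSum G hgood (H160.fibreSumStatement G)
  have hmod : IsPlaceReductionModL A M r :=
    Fermat.Agent.S37.Core.isPlaceReductionModL_of_isRed G hlink r hr
  refine ⟨r, fun f hf D hD Q => hr.2 (f : modularFunctionFieldBar M) f.2 hf D hD Q,
    fun σ hσ P => inertia_place hℓ hℓM hA hmod
      (exists_mapDomain_ne_zero hℓ hℓM hA G r hr) σ hσ P, hmod, hec⟩

end GrRed

end Fermat.Agent.A3.H615
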