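import Fermat.Agent.A3.H615.GrRim
import Fermat.Agent.S37.H28.DatumM

/-!
# Cell A3 / GR-INST: leaves RED (helper739's form) and RIM (helper19's form), UNCONDITIONAL

From `S37.H28.datumStatement` (a linked reduction datum with good charts at all good levels):

* `GrRed.redLeaf` : `A3.H739.RedLeaf N V` for every valuation ring `V` of `Q̄` above `ℓ ∤ N`,
  `(N, ℓ)` a good level — verbatim the hypothesis `hred` of
  `A3.H739.grStatement_of_leaves_forall`;
* `GrRed.rimStatement` : `A3.GR.RimStatement A M`, same hypotheses.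
-/

set_option autoImplicit false
set_option synthInstance.maxHeartbeats 400000

noncomputable section

namespace Fermat.Agent.A3.H615

open ModularCurve AlgebraicCurve

namespace GrRed

/-- **Leaf GR-RED, unconditional** (hypothesis `hred` of
`A3.H739.grStatement_of_leaves_forall`). -/
theorem redLeaf :
    ∀ (N : ℕ) [NeZero N] (ℓ : ℕ) [Fact ℓ.Prime], ¬ ℓ ∣ N → Fermat.Agent.S19.GoodLevel N ℓ →
      ∀ V : ValuationSubring Qb, V.LiesOverPrime ℓ → Fermat.Agent.A3.H739.RedLeaf N V :=
  redLeaf_of_datumStatement Fermat.Agent.S37.H28.datumStatement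

/-- **Leaf RIM of `A3/GR/Leaves.lean`, unconditional.** -/
theorem rimStatement (M : ℕ) [NeZero M] (ℓ : ℕ) [Fact ℓ.Prime] (hℓM : ¬ ℓ ∣ M)
    (hg : Fermat.Agent.S19.GoodLevel M ℓ)
    (A : ValuationSubring Qb) (hA : A.LiesOverPrime ℓ) :
    Fermat.Agent.A3.GR.RimStatement A M :=
  rimStatement_of_datumStatement Fermat.Agent.S37.H28.datumStatement M ℓ hℓM hg A hA

end GrRed

end Fermat.Agent.A3.H615
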