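import Fermat.Agent.A3.H615.GrRed
import Fermat.Agent.A3.H739.GrAsm
import Fermat.Agent.S37.Core.Board

/-!
# Cell A3 / GR-INST, leaf GR-RED of helper739's assembly (helper615)

`redLeaf_of_datum` : a linked reduction datum with good charts gives `A3.H739.RedLeaf N V`.
`redLeaf_of_datumStatement` : the S37 node `Core.DatumStatement` gives the hypothesis `hred` of
`A3.H739.grStatement_of_leaves_forall`, verbatim.
-/

set_option autoImplicit false
set_option synthInstance.maxHeartbeats 400000

noncomputable section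

namespace Fermat.Agent.A3.H615

open ModularCurve AlgebraicCurve HahnSeries IsLocalRing Fermat.Agent.S37.Red

namespace GrRed

/-- **Leaf GR-RED** from a linked reduction datum with good charts. -/
theorem redLeaf_of_datum (N : ℕ) [NeZero N] {ℓ : ℕ} (hℓ : ℓ.Prime) (hℓN : ¬ ℓ ∣ N)
    (V : ValuationSubring Qb) (hV : V.LiesOverPrime ℓ)
    (G : Datum V (residue V) (modularFunctionFieldBar N)
      (modularFunctionFieldFullC (ResidueField V) N))
    (hgood : G.Good) (hlink : H759.Link G) :
    Fermat.Agent.A3.H739.RedLeaf N V := by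
  obtain ⟨r, -, hI, hmod, -⟩ := exists_red hℓ hℓN hV G hgood hlink
  exact ⟨r, hmod, fun σ hσ P => hI σ hσ P⟩

/-- **Leaf GR-RED at all good levels** from the S37 node `DatumStatement`
(the hypothesis `hred` of `A3.H739.grStatement_of_leaves_forall`). -/
theorem redLeaf_of_datumStatement (h : Fermat.Agent.S37.Core.DatumStatement) :
    ∀ (N : ℕ) [NeZero N] (ℓ : ℕ) [Fact ℓ.Prime], ¬ ℓ ∣ N → Fermat.Agent.S19.GoodLevel N ℓ →
      ∀ V : ValuationSubring Qb, V.LiesOverPrime ℓ → Fermat.Agent.A3.H739.RedLeaf N V := by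
  intro N _ ℓ _ hℓN hg V hV
  obtain ⟨G, hgood, hlink⟩ := h N ℓ Fact.out hℓN hg V hV
  exact redLeaf_of_datum N Fact.out hℓN V hV G hgood hlink

end GrRed

end Fermat.Agent.A3.H615
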