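import Fermat.Agent.A3.H615.GrRedLeaf
import Fermat.Agent.A3.GR.Leaves

/-!
# Cell A3 / GR-INST, leaf RIM of helper19's assembly (helper615)

`rimStatement_of_datum` : a linked reduction datum with good charts gives `A3.GR.RimStatement A M`
(degrees, `r_* div u = div (ρ u)` for all fractions `u` of integral `q`-series, pointwise
invariance under the inertia group of `A`).
`rimStatement_of_datumStatement` : the same from the S37 node `Core.DatumStatement`.
-/

set_option autoImplicit false
set_option synthInstance.maxHeartbeats 400000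

noncomputable section

namespace Fermat.Agent.A3.H615

open ModularCurve AlgebraicCurve HahnSeries IsLocalRing Fermat.Agent.S37.Red

namespace GrRed

/-- Elements of the inertia group of `A` move every element of `A` by a nonunit. -/
theorem sub_mem_nonunits_of_mem_inertiaSubgroupIn {A : ValuationSubring Qb}
    {σ : Qb ≃ₐ[ℚ] Qb} (hσ : σ ∈ A.inertiaSubgroupIn ℚ) (a : Qb) (ha : a ∈ A) :
    σ a - a ∈ A.nonunits := by
  obtain ⟨d, hd, rfl⟩ := hσ
  have h : MulSemiringAction.toRingAut (A.decompositionSubgroup ℚ) (ResidueField A) d = 1 :=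
    MonoidHom.mem_ker.mp hd
  have h1 : d • residue A (⟨a, ha⟩ : A) = residue A (⟨a, ha⟩ : A) := by
    have h2 := congrArg (fun f : RingAut (ResidueField A) => f (residue A (⟨a, ha⟩ : A))) h
    exact h2
  have h3 : residue A (d • (⟨a, ha⟩ : A)) = d • residue A (⟨a, ha⟩ : A) :=
    IsLocalRing.ResidueField.residue_smul (A.decompositionSubgroup ℚ) d (⟨a, ha⟩ : A)
  have h4 : residue A (d • (⟨a, ha⟩ : A) - (⟨a, ha⟩ : A)) = 0 := by
    rw [map_sub, h3, h1, sub_self]
  rw [residue_eq_zero_iff] at h4
  exact ValuationSubring.coe_mem_nonunits_iff.mpr h4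

/-- **Leaf RIM** of `A3/GR/Leaves.lean` from a linked reduction datum with good charts. -/
theorem rimStatement_of_datum (M : ℕ) [NeZero M] {ℓ : ℕ} [Fact ℓ.Prime] (hℓM : ¬ ℓ ∣ M)
    (A : ValuationSubring Qb) (hA : A.LiesOverPrime ℓ)
    (G : Datum A (residue A) (modularFunctionFieldBar M)
      (modularFunctionFieldFullC (ResidueField A) M))
    (hgood : G.Good) (hlink : H759.Link G) :
    Fermat.Agent.A3.GR.RimStatement A M := by
  obtain ⟨r, -, hI, hmod, -⟩ := exists_red Fact.out hℓM hA G hgood hlink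
  refine ⟨r, hmod.1, ?_, ?_⟩
  · intro u hu D hD Q
    exact Fermat.Agent.A3.H739.gr_div_red (Fermat.Agent.A3.H739.gr_vg M hℓM A hA) r hmod
      ⟨(u : modularFunctionFieldBar M), u.2⟩ hu D hD Q
  · intro σ hσ P
    exact hI σ (sub_mem_nonunits_of_mem_inertiaSubgroupIn hσ) P

/-- **Leaf RIM at all good levels** from the S37 node `DatumStatement`. -/
theorem rimStatement_of_datumStatement (h : Fermat.Agent.S37.Core.DatumStatement)
    (M : ℕ) [NeZero M] (ℓ : ℕ) [Fact ℓ.Prime] (hℓM : ¬ ℓ ∣ M)
    (hg : Fermat.Agent.S37.Core.GoodLevel M ℓ)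
    (A : ValuationSubring Qb) (hA : A.LiesOverPrime ℓ) :
    Fermat.Agent.A3.GR.RimStatement A M := by
  obtain ⟨G, hgood, hlink⟩ := h M ℓ Fact.out hℓM hg A hA
  exact rimStatement_of_datum M hℓM A hA G hgood hlink

end GrRed

end Fermat.Agent.A3.H615
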