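import Fermat.Agent.A3.H615.Disc
import Fermat.Agent.Lib.RR.Riemann

/-!
# Cell A3 (helper615): the unique effective representative of a class reducing to a
non-special divisor

Setting: `h : TwoCharts π ι ρ B₀ B₁ x₀ x₁` (row S37, helper518) with reduction map
`r := h.rmap`, and the hypotheses `FF1` of the RR library on both fibres.

* `Disc.exists_div_mapDomain` : `r_*` of a principal divisor is principal.
* `Disc.IRR h` : the **integral Riemann–Roch inequality** `ℓ(D) ≤ ℓ(r_* D)` (a hypothesis here;
  it is work package W4 of `origin/helper15:coord/A3.md`).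
* `Disc.mapDomain_eq_of_effective` : if `E ≥ 0`, `r_* E ~ D₀`, `D₀ ≥ 0` and `ℓ(D₀) = 1`, then
  `r_* E = D₀`.
* `Disc.existsUnique_effective` : if `D₀ ≥ 0` is non-special (`ℓ(D₀) = 1`), `r_* D ~ D₀` and
  `ℓ(D) ≥ 1`, then the class of `D` contains exactly one effective divisor `E`, and `r_* E = D₀`.
* `Disc.existsUnique_effective_of_degree` : the same with `ℓ(D) ≥ 1` replaced by
  `deg D₀ ≥ genusR L F` (Riemann's inequality).

These give the coordinates of route "Z" on the residue disc of a non-special class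
(`origin/helper19:coord/A3-route-helper19.md` §1, `origin/helper799:coord/A3-route-helper799.md`
§3 Step 1).
-/

set_option autoImplicit false

noncomputable section

namespace Fermat.Agent.A3.H615

open AlgebraicCurve Fermat.Agent.S24.H504 Fermat.Agent.S37.H518 Fermat.Agent.Lib.RR

variable {L : Type*} [Field L] {A : ValuationSubring L} {k : Type*} [Field k]
variable {F : Type*} [Field F] [Algebra L F] {Fk : Type*} [Field Fk] [Algebra k Fk]
variable {V : Type*} [CommRing V] [Algebra A V]
variable {π : A →+* k} {ι : V →+* F} {ρ : V →+* Fk} {B₀ B₁ : Subalgebra A V} {x₀ x₁ : V}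

namespace Disc

/-! ### Generalities on divisors -/

/-- A divisor of the form `div f` for a nonzero constant multiple is zero: the divisor of a
function in `L(E)`, `E ≥ 0`, `ℓ(E) = 1`, vanishes. -/
theorem ord_eq_zero_of_mem_L_of_ell_eq_one {K' F' : Type*} [Field K'] [Field F'] [Algebra K' F']
    [FF1 K' F'] {E : Divisor K' F'} (hE : 0 ≤ E) (hl : ell E = 1) {f : F'}
    (hf : f ∈ riemannRochSpace E) (v : Place K' F') : v.ord f = 0 := by
  have hle : riemannRochSpace (0 : Divisor K' F') ≤ riemannRochSpace E := L_mono hE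
  have heq : riemannRochSpace (0 : Divisor K' F') = riemannRochSpace E := by
    apply Submodule.eq_of_le_of_finrank_eq hle
    have h0 : ell (0 : Divisor K' F') = 1 := ell_zero
    unfold ell at hl h0
    rw [hl, h0]
  rw [← heq, L_zero] at hf
  obtain ⟨c, rfl⟩ := hf
  exact Fermat.Agent.Lib.RR.ord_algebraMap v c

/-- If `E' = E + div f` is effective then `f ∈ L(E)`. -/
theorem mem_L_of_add_div_nonneg {K' F' : Type*} [Field K'] [Field F'] [Algebra K' F']
    {E E' : Divisor K' F'} (hE' : 0 ≤ E') {f : F'}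
    (hdiv : ∀ v : Place K' F', E' v - E v = v.ord f) : f ∈ riemannRochSpace E := by
  rw [mem_L_iff]
  intro v
  right
  have h1 := hdiv v
  have h2 : 0 ≤ E' v := by simpa using Finsupp.le_def.mp hE' v
  omega

/-- Two effective divisors in the same class, one of which has `ℓ = 1`, are equal. -/
theorem eq_of_effective_of_ell_eq_one {K' F' : Type*} [Field K'] [Field F'] [Algebra K' F']
    [FF1 K' F'] {E E' : Divisor K' F'} (hE : 0 ≤ E) (hE' : 0 ≤ E') (hl : ell E = 1)
    (hcl : E' - E ∈ Divisor.principal (K := K') (F := F')) : E' = E := by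
  obtain ⟨f, -, hf⟩ := hcl
  have hmem : f ∈ riemannRochSpace E :=
    mem_L_of_add_div_nonneg hE' fun v => by rw [← hf v, Finsupp.sub_apply]
  ext v
  have h1 := hf v
  rw [Finsupp.sub_apply, ord_eq_zero_of_mem_L_of_ell_eq_one hE hl hmem v] at h1
  omega

/-! ### Reduction of divisors -/

theorem mapDomain_nonneg_of_nonneg {α β : Type*} (r : α → β) {D : α →₀ ℤ} (hD : 0 ≤ D) :
    0 ≤ Finsupp.mapDomain r D := by
  rw [Finsupp.le_def]
  intro Q
  rw [Finsupp.zero_apply]
  exact Fermat.Agent.S18.H725.mapDomain_nonneg r D fun P _ => by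
    simpa using Finsupp.le_def.mp hD P

variable (h : TwoCharts π ι ρ B₀ B₁ x₀ x₁)

/-- `r_*` of the divisor of a nonzero function is the divisor of a nonzero function. -/
theorem exists_div_mapDomain [HasPrincipalDivisors L F] [HasPrincipalDivisors k Fk]
    {f : F} (hf : f ≠ 0) (D : Divisor L F) (hD : ∀ P, D P = P.ord f) :
    ∃ g : Fk, g ≠ 0 ∧ ∀ Q : Place k Fk, Finsupp.mapDomain h.rmap D Q = Q.ord g := by
  obtain ⟨a, -, b, -, ha0, hb0, μ, hμ, heq⟩ := h.frac f hf
  have hιa := h.iota_ne_zero ha0
  have hιb := h.iota_ne_zero hb0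
  obtain ⟨Da, hDa, -⟩ := HasPrincipalDivisors.exists_divisor (K := L) (ι a) hιa
  obtain ⟨Db, hDb, -⟩ := HasPrincipalDivisors.exists_divisor (K := L) (ι b) hιb
  have hμF : algebraMap L F μ ≠ 0 := by rwa [Ne, map_eq_zero]
  have hDeq : D = Da - Db := Finsupp.ext fun P => by
    rw [Finsupp.sub_apply, hD, hDa, hDb]
    have h1 := congrArg P.ord heq
    rw [P.ord_mul hf hιb, P.ord_mul hμF hιa, Fermat.Agent.Lib.RR.ord_algebraMap] at h1
    omega
  refine ⟨ρ a * (ρ b)⁻¹, mul_ne_zero ha0 (inv_ne_zero hb0), fun Q => ?_⟩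
  rw [hDeq, Finsupp.mapDomain_sub, Finsupp.sub_apply, h.mapDomain_rmap_eq ha0 Da hDa,
    h.mapDomain_rmap_eq hb0 Db hDb, Q.ord_mul ha0 (inv_ne_zero hb0), Q.ord_inv]
  ring

/-- `r_*` maps principal divisors to principal divisors. -/
theorem mapDomain_mem_principal [HasPrincipalDivisors L F] [HasPrincipalDivisors k Fk]
    {D : Divisor L F} (hD : D ∈ Divisor.principal (K := L) (F := F)) :
    Finsupp.mapDomain h.rmap D ∈ Divisor.principal (K := k) (F := Fk) := by
  obtain ⟨f, hf, hDf⟩ := hD
  obtain ⟨g, hg, hgD⟩ := exists_div_mapDomain h hf D hDf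
  exact ⟨g, hg, hgD⟩

/-- The **integral Riemann–Roch inequality** (work package W4): `ℓ(D) ≤ ℓ(r_* D)`. -/
def IRR : Prop :=
  ∀ D : Divisor L F, ell D ≤ ell (Finsupp.mapDomain h.rmap D)

variable {h}

/-- An effective divisor whose reduction is linearly equivalent to a non-special effective
divisor `D₀` reduces to `D₀`. -/
theorem mapDomain_eq_of_effective [FF1 k Fk] {D₀ : Divisor k Fk} (hD₀ : 0 ≤ D₀)
    (hns : ell D₀ = 1) {E : Divisor L F} (hE : 0 ≤ E)
    (hred : Finsupp.mapDomain h.rmap E - D₀ ∈ Divisor.principal (K := k) (F := Fk)) :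
    Finsupp.mapDomain h.rmap E = D₀ :=
  eq_of_effective_of_ell_eq_one hD₀ (mapDomain_nonneg_of_nonneg h.rmap hE) hns hred

/-- **Unique effective representative.**  Let `D₀ ≥ 0` be a non-special divisor on the special
fibre (`ℓ(D₀) = 1`) and `D` a divisor on the generic fibre with `r_* D ~ D₀` and `ℓ(D) ≥ 1`.
Then the class of `D` contains exactly one effective divisor. -/
theorem existsUnique_effective [FF1 L F] [FF1 k Fk] (hIRR : IRR h) {D₀ : Divisor k Fk}
    (hD₀ : 0 ≤ D₀) (hns : ell D₀ = 1) (D : Divisor L F)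
    (hred : Finsupp.mapDomain h.rmap D - D₀ ∈ Divisor.principal (K := k) (F := Fk))
    (hell : 1 ≤ ell D) :
    ∃! E : Divisor L F, 0 ≤ E ∧ E - D ∈ Divisor.principal (K := L) (F := F) := by
  -- reduction of any effective divisor of the class
  have key : ∀ E : Divisor L F, 0 ≤ E → E - D ∈ Divisor.principal (K := L) (F := F) →
      Finsupp.mapDomain h.rmap E = D₀ := by
    intro E hE hcl
    refine mapDomain_eq_of_effective hD₀ hns hE ?_
    have h1 := mapDomain_mem_principal h hcl
    rw [Finsupp.mapDomain_sub] at h1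
    have h2 := AddSubgroup.add_mem _ h1 hred
    rwa [sub_add_sub_cancel] at h2
  -- existence
  have hex : ∃ f : F, f ∈ riemannRochSpace D ∧ f ≠ 0 := by
    by_contra hcon
    push Not at hcon
    have hbot : riemannRochSpace D = ⊥ := by
      rw [eq_bot_iff]
      intro f hf
      rw [Submodule.mem_bot]
      exact hcon f hf
    unfold ell at hell
    rw [hbot, finrank_bot] at hell
    exact absurd hell (by norm_num)
  obtain ⟨f, hfL, hf0⟩ := hex
  obtain ⟨Df, hDf, -⟩ := HasPrincipalDivisors.exists_divisor (K := L) f hf0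
  have hE0 : 0 ≤ D + Df := by
    rw [Finsupp.le_def]
    intro v
    have := (mem_L_iff.mp hfL v).resolve_left hf0
    simp only [Finsupp.coe_zero, Pi.zero_apply, Finsupp.coe_add, Pi.add_apply, hDf v]
    omega
  have hEcl : D + Df - D ∈ Divisor.principal (K := L) (F := F) := by
    rw [add_sub_cancel_left]
    exact ⟨f, hf0, hDf⟩
  refine ⟨D + Df, ⟨hE0, hEcl⟩, ?_⟩
  -- uniqueness
  rintro E' ⟨hE', hcl'⟩
  have hl : ell (D + Df) = 1 := by
    have h1 := hIRR (D + Df)
    rw [key _ hE0 hEcl, hns] at h1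
    have h2 : 1 ≤ ell (D + Df) := by
      have h3 : ell (0 : Divisor L F) ≤ ell (D + Df) := ell_mono hE0
      rwa [ell_zero] at h3
    omega
  refine eq_of_effective_of_ell_eq_one hE0 hE' hl ?_
  have := AddSubgroup.sub_mem _ hcl' hEcl
  rwa [sub_sub_sub_cancel_right] at this

/-- The unique effective representative reduces to `D₀`. -/
theorem mapDomain_eq_of_effective_of_class [FF1 L F] [FF1 k Fk] {D₀ : Divisor k Fk}
    (hD₀ : 0 ≤ D₀) (hns : ell D₀ = 1) {D E : Divisor L F}
    (hred : Finsupp.mapDomain h.rmap D - D₀ ∈ Divisor.principal (K := k) (F := Fk))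
    (hE : 0 ≤ E) (hcl : E - D ∈ Divisor.principal (K := L) (F := F)) :
    Finsupp.mapDomain h.rmap E = D₀ := by
  refine mapDomain_eq_of_effective hD₀ hns hE ?_
  have h1 := mapDomain_mem_principal h hcl
  rw [Finsupp.mapDomain_sub] at h1
  have h2 := AddSubgroup.add_mem _ h1 hred
  rwa [sub_add_sub_cancel] at h2

/-- `r_*` preserves degrees. -/
theorem degree_mapDomain_rmap (D : Divisor L F) :
    Divisor.degree (Finsupp.mapDomain h.rmap D) = Divisor.degree D := by
  induction D using Finsupp.induction with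
  | zero => simp
  | single_add P n D _ _ ih =>
    rw [Finsupp.mapDomain_add, map_add, map_add, ih, Finsupp.mapDomain_single,
      Divisor.degree_single, Divisor.degree_single, h.deg_rmap]

/-- **Unique effective representative**, degree form: if `deg D₀ ≥ g` (the Riemann genus of the
generic fibre), `D₀ ≥ 0` is non-special and `r_* D ~ D₀`, then the class of `D` contains exactly
one effective divisor. -/
theorem existsUnique_effective_of_degree [FF1 L F] [FF1 k Fk] (hIRR : IRR h)
    {D₀ : Divisor k Fk} (hD₀ : 0 ≤ D₀) (hns : ell D₀ = 1) (D : Divisor L F)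
    (hred : Finsupp.mapDomain h.rmap D - D₀ ∈ Divisor.principal (K := k) (F := Fk))
    (hdeg : (genusR L F : ℤ) ≤ Divisor.degree D₀) :
    ∃! E : Divisor L F, 0 ≤ E ∧ E - D ∈ Divisor.principal (K := L) (F := F) := by
  refine existsUnique_effective hIRR hD₀ hns D hred ?_
  have h1 := riemann_inequality (K := L) (F := F) D
  have h2 : Divisor.degree D = Divisor.degree D₀ := by
    obtain ⟨g, hg, hgD⟩ := hred
    obtain ⟨Dg, hDg, hDg0⟩ := HasPrincipalDivisors.exists_divisor (K := k) g hg
    have : Finsupp.mapDomain h.rmap D - D₀ = Dg := Finsupp.ext fun Q => by rw [hgD, hDg]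
    have h3 := congrArg Divisor.degree this
    rw [map_sub, degree_mapDomain_rmap, hDg0] at h3
    omega
  omega

end Disc

end Fermat.Agent.A3.H615
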